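import Fermat.Agent.Kummer.Defs
import Fermat.Agent.Kummer.ModP

/-!
# (D2), steps 1-2: congruences modulo `λ = ζ - 1` and normalisation `λ ^ 2 ∣ a + η * b`
-/

set_option autoImplicit false

open NumberField IsCyclotomicExtension.Rat Polynomial

namespace Fermat.Agent.Kummer.Descent

variable {p : ℕ} [hp : Fact p.Prime] {K : Type*} [Field K] [NumberField K]
  [hK : IsCyclotomicExtension {p} ℚ K] {ζ : K} (hζ : IsPrimitiveRoot ζ p)

include hζ in
/-- (S1) Every element of `𝓞 K` is congruent to a rational integer modulo `λ = ζ - 1`. -/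
theorem exists_int_lam_dvd_sub (ρ : 𝓞 K) : ∃ n : ℤ, (hζ.toInteger - 1) ∣ ρ - (n : 𝓞 K) := by
  have hp' : NeZero p := ⟨hp.out.ne_zero⟩
  have hmem : ρ ∈ Algebra.adjoin ℤ {hζ.toInteger} := by
    rw [adjoin_singleton_eq_top hζ]
    exact Algebra.mem_top
  induction hmem using Algebra.adjoin_induction with
  | mem x hx =>
    rw [Set.mem_singleton_iff] at hx
    subst hx
    exact ⟨1, by simp⟩
  | algebraMap r =>
    exact ⟨r, by simp⟩
  | add x y _ _ hx hy =>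
    obtain ⟨n, a, ha⟩ := hx
    obtain ⟨m, b, hb⟩ := hy
    refine ⟨n + m, a + b, ?_⟩
    push_cast
    linear_combination ha + hb
  | mul x y _ _ hx hy =>
    obtain ⟨n, a, ha⟩ := hx
    obtain ⟨m, b, hb⟩ := hy
    refine ⟨n * m, a * y + (n : 𝓞 K) * b, ?_⟩
    push_cast
    linear_combination y * ha + (n : 𝓞 K) * hb

omit [NumberField K] hK in
include hζ in
/-- `λ ∣ p` in `𝓞 K`. -/
theorem lam_dvd_natCast : (hζ.toInteger - 1) ∣ (p : 𝓞 K) :=
  (dvd_pow_self _ (Nat.sub_ne_zero_of_lt hp.out.one_lt)).trans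
    (associated_zeta_sub_one_pow_prime p hζ).dvd

include hζ in
/-- (S2) If `λ ∣ a + b` and `λ ∤ b` then `λ ^ 2 ∣ a + η * b` for some `p`-th root of unity `η`. -/
theorem exists_root_sq_dvd {a b : 𝓞 K} (hb : ¬ (hζ.toInteger - 1) ∣ b)
    (hab : (hζ.toInteger - 1) ∣ a + b) :
    ∃ η ∈ nthRootsFinset p (1 : 𝓞 K), (hζ.toInteger - 1) ^ 2 ∣ a + η * b := by
  have hp' : NeZero p := ⟨hp.out.ne_zero⟩
  obtain ⟨α, hα⟩ := hab
  obtain ⟨n, α', hn⟩ := exists_int_lam_dvd_sub hζ α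
  obtain ⟨k, b', hk⟩ := exists_int_lam_dvd_sub hζ b
  have hlp := lam_dvd_natCast hζ
  -- `p ∤ k`
  have hpk : ¬ (p : ℤ) ∣ k := by
    intro hpk
    apply hb
    have h1 : (hζ.toInteger - 1) ∣ (k : 𝓞 K) := (zeta_sub_one_dvd_intCast_iff' p hζ).mpr hpk
    have : b = (k : 𝓞 K) + (hζ.toInteger - 1) * b' := by rw [← hk]; ring
    rw [this]
    exact dvd_add h1 (dvd_mul_right _ _)
  -- choose `i` with `p ∣ n + i * k`
  have hk0 : (k : ZMod p) ≠ 0 := by rwa [Ne, ZMod.intCast_zmod_eq_zero_iff_dvd]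
  obtain ⟨i, hi⟩ : ∃ i : ℕ, (p : ℤ) ∣ n + i * k := by
    refine ⟨((-(n : ZMod p)) * (k : ZMod p)⁻¹).val, ?_⟩
    rw [← ZMod.intCast_zmod_eq_zero_iff_dvd]
    push_cast
    rw [ZMod.natCast_zmod_val]
    field_simp
    ring
  refine ⟨hζ.toInteger ^ i, ?_, ?_⟩
  · rw [mem_nthRootsFinset (NeZero.pos p), ← pow_mul, mul_comm, pow_mul,
      hζ.toInteger_isPrimitiveRoot.pow_eq_one, one_pow]
  · -- `a + ζ^i b = λ (α + (Σ_{j<i} ζ^j) b)`
    have hgeom : hζ.toInteger ^ i - 1 =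
        (hζ.toInteger - 1) * ∑ j ∈ Finset.range i, hζ.toInteger ^ j := by
      rw [mul_comm, geom_sum_mul]
    have h1 : a + hζ.toInteger ^ i * b =
        (hζ.toInteger - 1) * (α + (∑ j ∈ Finset.range i, hζ.toInteger ^ j) * b) := by
      have : a + hζ.toInteger ^ i * b = (a + b) + (hζ.toInteger ^ i - 1) * b := by ring
      rw [this, hα, hgeom]; ring
    -- `Σ_{j<i} ζ^j ≡ i mod λ`
    have hsum : (hζ.toInteger - 1) ∣ (∑ j ∈ Finset.range i, hζ.toInteger ^ j) - (i : 𝓞 K) := by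
      have : (∑ j ∈ Finset.range i, hζ.toInteger ^ j) - (i : 𝓞 K) =
          ∑ j ∈ Finset.range i, (hζ.toInteger ^ j - 1) := by
        rw [Finset.sum_sub_distrib]; simp
      rw [this]
      refine Finset.dvd_sum fun j _ => ?_
      have := sub_dvd_pow_sub_pow hζ.toInteger 1 j
      simpa using this
    obtain ⟨s', hs'⟩ := hsum
    rw [h1, pow_two]
    refine mul_dvd_mul_left _ ?_
    -- `α + S b ≡ n + i k ≡ 0`
    obtain ⟨t, ht⟩ := hi
    have ht' : (n : 𝓞 K) + (i : 𝓞 K) * (k : 𝓞 K) = (p : 𝓞 K) * (t : 𝓞 K) := by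
      have := congrArg (fun z : ℤ => (z : 𝓞 K)) ht
      simpa using this
    obtain ⟨q, hq⟩ := hlp
    refine ⟨α' + s' * b + (i : 𝓞 K) * b' + q * (t : 𝓞 K), ?_⟩
    have e1 : α = (n : 𝓞 K) + (hζ.toInteger - 1) * α' := by rw [← hn]; ring
    have e2 : b = (k : 𝓞 K) + (hζ.toInteger - 1) * b' := by rw [← hk]; ring
    have e3 : (∑ j ∈ Finset.range i, hζ.toInteger ^ j) = (i : 𝓞 K) + (hζ.toInteger - 1) * s' := by
      rw [← hs']; ring
    rw [e3]
    linear_combination e1 + (i : 𝓞 K) * e2 + ht' + (t : 𝓞 K) * hq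
    
end Fermat.Agent.Kummer.Descent
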